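import Fermat.Agent.SSP.NG.Geo
import Fermat.Agent.SS.Abs.Main

/-!
# SSP / NG-D : inertia acts trivially on the special fibre.  Proofs: see the header of `SSP/NG/Geo.lean`.
-/

set_option autoImplicit false

open AlgebraicCurve

namespace Fermat.Agent.SSP

open Fermat.Agent.RED Fermat.Agent.S24 Fermat.Agent.SS Fermat.Agent.ND

variable {K F k Fb : Type*} [Field K] [Field F] [Algebra K F] [Field k] [Field Fb] [Algebra k Fb]

/-- an automorphism compatible with a reduction and inducing the identity on the residue field preserves the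
valuation. -/
theorem valuation_smul_of_compat (R : RedData K F k Fb) (g : SemilinearAut K F)
    (hmem : ∀ u : R.O, g • (u : F) ∈ R.O)
    (hred : ∀ u : R.O, R.red ⟨g • (u : F), hmem u⟩ = R.red u)
    (hunit : ∀ c : K, c ≠ 0 → algebraMap K F (SemilinearAut.baseAut g c * c⁻¹) ∈ R.O) (f : F) :
    R.O.valuation (g • f) = R.O.valuation f := by
  rcases eq_or_ne f 0 with rfl | hf
  · rw [smul_zero]
  obtain ⟨h, a, ha, hr⟩ := RedData_smul_div R g hmem hred hunit hf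
  have hu : IsUnit (⟨(g • f) * f⁻¹, h⟩ : R.O) := by
    apply R.isUnit_of_red_ne_zero
    rw [hr, Ne, map_eq_zero]
    exact ha
  have h1 := (ValuationSubring.valuation_eq_one_iff R.O _).1 hu
  have h2 : R.O.valuation ((g • f) * f⁻¹) = 1 := h1
  rw [map_mul, map_inv₀] at h2
  have h3 : R.O.valuation f ≠ 0 := by rwa [Ne, map_eq_zero]
  exact (mul_inv_eq_one₀ h3).1 h2

theorem rd_smul_of_compat (R : RedData K F k Fb) (g : SemilinearAut K F)
    (hmem : ∀ u : R.O, g • (u : F) ∈ R.O)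
    (hred : ∀ u : R.O, R.red ⟨g • (u : F), hmem u⟩ = R.red u)
    (hunit : ∀ c : K, c ≠ 0 → algebraMap K F (SemilinearAut.baseAut g c * c⁻¹) ∈ R.O) (f : F) :
    rd R.O R.red (g • f) = rd R.O R.red f := by
  by_cases hf : f ∈ R.O
  · rw [rd_of_mem hf, rd_of_mem (hmem ⟨f, hf⟩)]
    exact hred ⟨f, hf⟩
  · have hgf : g • f ∉ R.O := by
      intro h
      apply hf
      rw [← ValuationSubring.valuation_le_one_iff] at h ⊢
      rwa [valuation_smul_of_compat R g hmem hred hunit f] at h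
    rw [rd, rd, dif_neg hf, dif_neg hgf]

variable {T : TwoRed K F k Fb} {𝒩 : NodalData T} [IsAlgClosed K] [IsAlgClosed k] {x : F} {t : Fb}

theorem nodeTo_smul_iff (hx : IsSepParam K x) (hb : IsSepParam k t) {g : SemilinearAut K F}
    (hg : IsCompat 𝒩 g 1) {v : Place K F} {s : 𝒩.S} : NodeTo 𝒩 (g • v) s ↔ NodeTo 𝒩 v s := by
  obtain ⟨n, hn⟩ := 𝒩.exists_isLarge hx hb
  have hW := W_neg_smul hx hn (a := n + 2) (by omega) hg v
  constructor
  · intro h
    exact nodeTo_of_le hx hb hn (a := n + 2) (b := 0) (by omega) (hW ▸ h (n + 2) 0)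
  · intro h
    exact nodeTo_of_le hx hb hn (a := n + 2) (b := 0) (by omega) (hW.symm ▸ h (n + 2) 0)

theorem gr₁_of_nodeTo (hx : IsSepParam K x) (hb : IsSepParam k t) (s₀ : 𝒩.S) {v : Place K F}
    {s : 𝒩.S} (h : NodeTo 𝒩 v s) : gr₁ 𝒩 s₀ v = 𝒩.x₁ s := by
  have hex : ∃ s, NodeTo 𝒩 v s := ⟨s, h⟩
  rw [gr₁, dif_pos hex, NodeTo.unique hx hb hex.choose_spec h]

theorem gr₂_of_nodeTo (hx : IsSepParam K x) (hb : IsSepParam k t) (s₀ : 𝒩.S) {v : Place K F}
    {s : 𝒩.S} (h : NodeTo 𝒩 v s) : gr₂ 𝒩 s₀ v = 𝒩.x₂ s := by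
  have hex : ∃ s, NodeTo 𝒩 v s := ⟨s, h⟩
  rw [gr₂, dif_pos hex, NodeTo.unique hx hb hex.choose_spec h]

/-- **inertia acts trivially on the special fibre** -/
theorem isInert_of_isCompat (hx : IsSepParam K x) (hb : IsSepParam k t) (s₀ : 𝒩.S)
    {g : SemilinearAut K F} (hg : IsCompat 𝒩 g 1) : IsInert (geo hx hb s₀) g where
  val₁ := valuation_smul_of_compat T.R₁ g hg.mem₁ (fun u => by rw [hg.red₁ u, one_smul])
    (fun c hc => hg.unit c hc)
  val₂ := valuation_smul_of_compat T.R₂ g hg.mem₂ (fun u => by rw [hg.red₂ u, one_smul])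
    (fun c hc => (T.const_mem _).1 (hg.unit c hc))
  rd₁ := rd_smul_of_compat T.R₁ g hg.mem₁ (fun u => by rw [hg.red₁ u, one_smul])
    (fun c hc => hg.unit c hc)
  rd₂ := rd_smul_of_compat T.R₂ g hg.mem₂ (fun u => by rw [hg.red₂ u, one_smul])
    (fun c hc => (T.const_mem _).1 (hg.unit c hc))
  r₁ := by
    intro P
    show gr₁ 𝒩 s₀ (g • P) = gr₁ 𝒩 s₀ P
    by_cases h : ∃ s, NodeTo 𝒩 P s
    · obtain ⟨s, hs⟩ := h
      rw [gr₁_of_nodeTo hx hb s₀ hs, gr₁_of_nodeTo hx hb s₀ ((nodeTo_smul_iff hx hb hg).2 hs)]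
    · have h' : ¬ ∃ s, NodeTo 𝒩 (g • P) s := by
        rintro ⟨s, hs⟩
        exact h ⟨s, (nodeTo_smul_iff hx hb hg).1 hs⟩
      rw [gr₁, gr₁, dif_neg h, dif_neg h', r₁_smul hx hb s₀ hg]
  r₂ := by
    intro P
    show gr₂ 𝒩 s₀ (g • P) = gr₂ 𝒩 s₀ P
    by_cases h : ∃ s, NodeTo 𝒩 P s
    · obtain ⟨s, hs⟩ := h
      rw [gr₂_of_nodeTo hx hb s₀ hs, gr₂_of_nodeTo hx hb s₀ ((nodeTo_smul_iff hx hb hg).2 hs)]
    · have h' : ¬ ∃ s, NodeTo 𝒩 (g • P) s := by
        rintro ⟨s, hs⟩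
        exact h ⟨s, (nodeTo_smul_iff hx hb hg).1 hs⟩
      rw [gr₂, gr₂, dif_neg h, dif_neg h', r₂_smul hx hb s₀ hg]

end Fermat.Agent.SSP
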