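import Fermat.Agent.SSP.NG.Glue
import Fermat.Agent.SSP.Basic
import Fermat.Agent.ND.P1
import Fermat.Agent.ND.ParamB
import Fermat.Agent.ND.Eqv

/-!
# SSP / NG-C, NG-D : the interface `Geo 𝒩` from the nodal Deuring theory `ND/`

`gr₁ v := x₁ s` if `NodeTo 𝒩 v s`, `:= ND.r₁ 𝒩 s₀ v` otherwise (same for `gr₂`).

* `gr₁_eq_iff` : for a good point `Q` : `gr₁ v = Q ↔ ND.r₁ 𝒩 s₀ v = Q`.  (If `NodeTo 𝒩 v s` then `v` is not smooth, so
  `ND.r₁ 𝒩 s₀ v ∉ G₁` by `smooth_iff`, and `x₁ s ∉ G₁`.)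
* `isReductionOn_congr` : `IsReductionOn` only depends on the fibres of `r` over `G` :
  `D.mapDomain r Q = ∑_{v ∈ supp D, r v = Q} D v` (`Finsupp.mapDomain`, `Finsupp.sum_apply`, `Finsupp.single_apply`;
  there is `SSP.mapDomain_filter_comm` in `SSP/Sep.lean` and `mapDomain_apply_eq_zero` in `ND`).
* `near_iff` : `gr₁ v = x₁ e ∧ gr₂ v = x₂ e ↔ NodeTo 𝒩 v e`.  (`→` : if `v` is of node type `s` then `x₁ s = x₁ e`, `x₁_inj`.  Otherwise `v` is smooth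
  (`exists_nodeTo`), so `ND.r₁ .. ∈ G₁` or `ND.r₂ .. ∈ G₂` (`smooth_iff`), which excludes `x₁ e` resp. `x₂ e`.)
* `geo` : fields from `ND.isReductionOn₁/₂` (+ `G₁_eq_compl`), `glue_loc`, `evN_loc`, `exists_nodeTo`, `smooth_iff`,
  `not_mem_G₁_and_mem_G₂`, `Rat.exists_place₁ rat_empty` + `exists_mem_G₁`.
* `nodeTo_smul_iff` : `ND.W_neg_smul` at the level `(n + 2, 0)` + `nodeTo_of_le` (compare `ND.redTo₁_smul_iff`).
* `isInert_of_isCompat` : `val_i` : `g` and `g⁻¹` preserve `O_i`.  NOTE `IsCompat 𝒩 g 1` is only assumed for `g`; for `f ∉ O_i` use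
  `f⁻¹` : `v(f) > 1 ⟹ v(f⁻¹) < 1 ⟹ red (g f⁻¹) = red f⁻¹ = 0 ⟹ v(g f⁻¹) < 1`; for general `f ≠ 0` write `v(f) = v(c)`, `c ∈ K`
  (`IsReductionOn.scale`), `f / c` is a unit, `red (g (f / c)) = red (f / c) ≠ 0`, so `g (f / c)` is a unit, and `g c / c`, `c / g c` … :
  `hg.unit c` gives `g c / c ∈ A`; apply it also to `c⁻¹` : `g c⁻¹ / c⁻¹ = c / g c ∈ A`; so `v(g c) = v(c)`.
  `rd_i` : `hg.red₁`, `one_smul` on `O_i`; outside `O_i` both sides are `0` by `val_i` (`rd` is `0` outside `O`).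
  `r_i` : `nodeTo_smul_iff`, `ND.r₁_smul`, `NodeTo.unique`.
-/

set_option autoImplicit false

open AlgebraicCurve

namespace Fermat.Agent.SSP

open Fermat.Agent.RED Fermat.Agent.S24 Fermat.Agent.SS Fermat.Agent.ND

variable {K F k Fb : Type*} [Field K] [Field F] [Algebra K F] [Field k] [Field Fb] [Algebra k Fb]
variable {T : TwoRed K F k Fb}

open Classical in
/-- specialisation to the first component, with the right value at the places of node type -/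
noncomputable def gr₁ (𝒩 : NodalData T) (s₀ : 𝒩.S) (v : Place K F) : Place k Fb :=
  if h : ∃ s, NodeTo 𝒩 v s then 𝒩.x₁ h.choose else ND.r₁ 𝒩 s₀ v

open Classical in
/-- specialisation to the second component -/
noncomputable def gr₂ (𝒩 : NodalData T) (s₀ : 𝒩.S) (v : Place K F) : Place k Fb :=
  if h : ∃ s, NodeTo 𝒩 v s then 𝒩.x₂ h.choose else ND.r₂ 𝒩 s₀ v

theorem mapDomain_apply_congr {α β : Type*} (D : α →₀ ℤ) {r r' : α → β} {Q : β}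
    (h : ∀ v, r' v = Q ↔ r v = Q) : D.mapDomain r' Q = D.mapDomain r Q := by
  classical
  simp only [Finsupp.mapDomain, Finsupp.sum_apply, Finsupp.single_apply]
  refine Finsupp.sum_congr fun v _ => ?_
  simp only [h v]

theorem isReductionOn_congr {O : ValuationSubring F} {red : O →+* Fb}
    {r r' : Place K F → Place k Fb} {G : Set (Place k Fb)} (h : IsReductionOn O red r G)
    (hr : ∀ v, ∀ Q ∈ G, r' v = Q ↔ r v = Q) : IsReductionOn O red r' G :=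
  ⟨h.ker, h.const, h.scale, fun x hx D hD Q hQ => by
    rw [mapDomain_apply_congr D fun v => hr v Q hQ]
    exact h.div_red x hx D hD Q hQ, h.exists_div, h.exists_value⟩

variable {𝒩 : NodalData T} [IsAlgClosed K] [IsAlgClosed k] {x : F} {t : Fb}

theorem gr₁_eq_iff (hx : IsSepParam K x) (hb : IsSepParam k t) (s₀ : 𝒩.S) (v : Place K F)
    {Q : Place k Fb} (hQ : Q ∈ G₁ 𝒩) : gr₁ 𝒩 s₀ v = Q ↔ ND.r₁ 𝒩 s₀ v = Q := by
  unfold gr₁
  by_cases h : ∃ s, NodeTo 𝒩 v s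
  · rw [dif_pos h]
    constructor
    · intro h1
      exact absurd h1 (hQ _)
    · intro h1
      exact absurd ((smooth_iff s₀).2 (Or.inl (h1 ▸ hQ))) (h.choose_spec.not_smooth hx hb)
  · rw [dif_neg h]

theorem gr₂_eq_iff (hx : IsSepParam K x) (hb : IsSepParam k t) (s₀ : 𝒩.S) (v : Place K F)
    {Q : Place k Fb} (hQ : Q ∈ G₂ 𝒩) : gr₂ 𝒩 s₀ v = Q ↔ ND.r₂ 𝒩 s₀ v = Q := by
  unfold gr₂
  by_cases h : ∃ s, NodeTo 𝒩 v s
  · rw [dif_pos h]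
    constructor
    · intro h1
      exact absurd h1 (hQ _)
    · intro h1
      exact absurd ((smooth_iff s₀).2 (Or.inr (h1 ▸ hQ))) (h.choose_spec.not_smooth hx hb)
  · rw [dif_neg h]

theorem near_iff (hx : IsSepParam K x) (hb : IsSepParam k t) (s₀ : 𝒩.S) (v : Place K F)
    (e : 𝒩.S) : (gr₁ 𝒩 s₀ v = 𝒩.x₁ e ∧ gr₂ 𝒩 s₀ v = 𝒩.x₂ e) ↔ NodeTo 𝒩 v e := by
  unfold gr₁ gr₂
  by_cases h : ∃ s, NodeTo 𝒩 v s
  · rw [dif_pos h, dif_pos h]
    constructor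
    · rintro ⟨h1, -⟩
      exact 𝒩.x₁_inj h1 ▸ h.choose_spec
    · intro he
      rw [h.choose_spec.unique hx hb he]
      exact ⟨rfl, rfl⟩
  · rw [dif_neg h, dif_neg h]
    constructor
    · rintro ⟨h1, h2⟩
      have hs : Smooth 𝒩 v := by
        by_contra hns
        exact h (exists_nodeTo hx hb hns)
      rcases (smooth_iff s₀).1 hs with h3 | h3
      · exact absurd h1.symm (h3 e)
      · exact absurd h2.symm (h3 e)
    · intro he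
      exact absurd ⟨e, he⟩ h

theorem gr_cases (hx : IsSepParam K x) (hb : IsSepParam k t) (s₀ : 𝒩.S) (v : Place K F) :
    gr₁ 𝒩 s₀ v ∉ Set.range 𝒩.x₁ ∨ gr₂ 𝒩 s₀ v ∉ Set.range 𝒩.x₂ ∨
      ∃ e, gr₁ 𝒩 s₀ v = 𝒩.x₁ e ∧ gr₂ 𝒩 s₀ v = 𝒩.x₂ e := by
  by_cases h : ∃ s, NodeTo 𝒩 v s
  · obtain ⟨e, he⟩ := h
    exact Or.inr (Or.inr ⟨e, (near_iff hx hb s₀ v e).2 he⟩)
  · have hs : Smooth 𝒩 v := by
      by_contra hns
      exact h (exists_nodeTo hx hb hns)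
    unfold gr₁ gr₂
    rw [dif_neg h, dif_neg h]
    rcases (smooth_iff s₀).1 hs with h3 | h3
    · left
      rintro ⟨s, hs⟩
      exact h3 s hs
    · right; left
      rintro ⟨s, hs⟩
      exact h3 s hs

theorem gr_disj (hx : IsSepParam K x) (hb : IsSepParam k t) (s₀ : 𝒩.S) (v : Place K F)
    (h₁ : gr₁ 𝒩 s₀ v ∉ Set.range 𝒩.x₁) (h₂ : gr₂ 𝒩 s₀ v ∉ Set.range 𝒩.x₂) : False := by
  unfold gr₁ at h₁
  unfold gr₂ at h₂
  by_cases h : ∃ s, NodeTo 𝒩 v s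
  · rw [dif_pos h] at h₁
    exact h₁ ⟨_, rfl⟩
  · rw [dif_neg h] at h₁ h₂
    exact not_mem_G₁_and_mem_G₂ hx hb s₀ (v := v) (fun s hs => h₁ ⟨s, hs⟩)
      (fun s hs => h₂ ⟨s, hs⟩)

theorem gr_exists_smooth (hx : IsSepParam K x) (hb : IsSepParam k t) (s₀ : 𝒩.S) :
    ∃ v : Place K F, gr₁ 𝒩 s₀ v ∉ Set.range 𝒩.x₁ := by
  obtain ⟨Q, hQ⟩ := exists_mem_G₁ (𝒩 := 𝒩) hb
  obtain ⟨v, hv, -⟩ := (rat_empty (𝒩 := 𝒩) hx hb).exists_place₁ hx hb s₀ hQ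
  refine ⟨v, ?_⟩
  rw [(gr₁_eq_iff hx hb s₀ v hQ).2 hv]
  rintro ⟨s, hs⟩
  exact hQ s hs

/-- **the interface** -/
noncomputable def geo (hx : IsSepParam K x) (hb : IsSepParam k t) (s₀ : 𝒩.S) : Geo 𝒩 where
  r₁ := gr₁ 𝒩 s₀
  r₂ := gr₂ 𝒩 s₀
  red₁ := by
    rw [← G₁_eq_compl]
    exact isReductionOn_congr (isReductionOn₁ hx hb s₀) fun v Q hQ => gr₁_eq_iff hx hb s₀ v hQ
  red₂ := by
    rw [← G₂_eq_compl]
    exact isReductionOn_congr (isReductionOn₂ hx hb s₀) fun v Q hQ => gr₂_eq_iff hx hb s₀ v hQ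
  glue e u hu := glue_loc hx hb e u fun v hv =>
    hu v ((near_iff hx hb s₀ v e).2 hv).1 ((near_iff hx hb s₀ v e).2 hv).2
  evN e u hu := by
    rintro ⟨P, h1, h2, h3⟩
    exact evN_loc hx hb e u (fun v hv =>
      hu v ((near_iff hx hb s₀ v e).2 hv).1 ((near_iff hx hb s₀ v e).2 hv).2)
      ((near_iff hx hb s₀ P e).1 ⟨h1, h2⟩) h3
  cases := gr_cases hx hb s₀
  disj := gr_disj hx hb s₀
  exists_smooth := gr_exists_smooth hx hb s₀

theorem geo_near_iff (hx : IsSepParam K x) (hb : IsSepParam k t) (s₀ : 𝒩.S) (e : 𝒩.S)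
    (v : Place K F) : (geo hx hb s₀).Near e v ↔ NodeTo 𝒩 v e :=
  near_iff hx hb s₀ v e

end Fermat.Agent.SSP
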