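import Fermat.Agent.SSP.NG.NodeTo
import Fermat.Agent.ND.Sec

/-!
# SSP / NG-B : localised glue and evaluation at the places reducing to a node

* `exists_node_one_of_nodeTo` : `W(-v) a b = LLn a b s'` (`W_neg_eq_LLn`) contains a section with value `1` at `s`, `0` at `s'`
  (`exists_mem_LL_hasVal` with `c = Pi.single s 1` or `fun i => if i = s then 1 else 0`).
* `exists_one_away` : `v` is smooth (`ND.exists_node_one`) or `NodeTo 𝒩 v s'` with `s' ≠ s` (`exists_nodeTo`).
* `glueAt_of_away` : the induction of `ND.glueAt_of_smooth` (`ND/Sec.lean`; copy `GlueAt.add_single`, `add_nsmul_single`,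
  `glueAt_of_smooth` with `exists_one_away` instead of `exists_node_one`).
* `glue_loc` : as `ND.glue_of_smooth_poles`, `E = polarDiv K w`.
* `VanAt`, `vanAt_of_away`, `evN_loc` : the same induction for the statement
  "`w ∈ L(E - v₀ + X a b) ∩ O` ⟹ `(red w).1` has the value `0` at `x₁ s`"; the case `E = 0` is the definition of `NodeTo 𝒩 v₀ s`.
  For `evN_loc` take `E = polarDiv K w` : `w ∈ L(E - v₀)` because `ord_{v₀} w ≥ 1` and `E v₀ = 0`.
-/

set_option autoImplicit false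

open AlgebraicCurve

namespace Fermat.Agent.SSP

open Fermat.Agent.RED Fermat.Agent.S24 Fermat.Agent.SS Fermat.Agent.ND

variable {K F k Fb : Type*} [Field K] [Field F] [Algebra K F] [Field k] [Field Fb] [Algebra k Fb]
variable {T : TwoRed K F k Fb} {𝒩 : NodalData T} [IsAlgClosed K] [IsAlgClosed k] {x : F} {t : Fb}

theorem exists_node_one_of_nodeTo (hx : IsSepParam K x) (hb : IsSepParam k t) {n : ℕ}
    (hn : 𝒩.IsLarge n) {a b : ℕ} (hab : n + 1 ≤ a + b) {v : Place K F} {s s' : 𝒩.S}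
    (hv : NodeTo 𝒩 v s') (hs : s ≠ s') :
    ∃ h : T.O, (h : F) ∈ riemannRochSpace (-Finsupp.single v 1 + 𝒩.X a b) ∧
      HasVal (𝒩.x₁ s) (T.red h).1 1 ∧ HasVal (𝒩.x₂ s) (T.red h).2 1 := by
  classical
  have hab' : (n : ℤ) + 1 ≤ ((a + b : ℕ) : ℤ) := by exact_mod_cast hab
  have l1 := 𝒩.le_degree_X₁ a b
  have l2 := 𝒩.le_degree_X₂ a b
  have hEq := W_neg_eq_LLn hx hb hn hab (hv a b)
  obtain ⟨z, hz, hzv⟩ := exists_mem_LL_hasVal hb hn (off₁_X₁ (𝒩 := 𝒩) a b) (off₂_X₂ a b)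
    (by linarith) (by linarith) (fun i => if i = s then 1 else 0)
  have hzs : z ∈ LLn 𝒩 (𝒩.X₁ a b) (𝒩.X₂ a b) s' := by
    have := hzv s'
    rw [if_neg (fun e => hs e.symm)] at this
    exact ⟨hz, this.1, this.2⟩
  rw [← hEq] at hzs
  obtain ⟨h, hh, rfl⟩ := hzs
  have := hzv s
  rw [if_pos rfl] at this
  exact ⟨h, hh, this.1, this.2⟩

theorem exists_one_away (hx : IsSepParam K x) (hb : IsSepParam k t) {n : ℕ}
    (hn : 𝒩.IsLarge n) {a b : ℕ} (hab : n + 1 ≤ a + b) {v : Place K F} {s : 𝒩.S}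
    (hv : ¬ NodeTo 𝒩 v s) :
    ∃ h : T.O, (h : F) ∈ riemannRochSpace (-Finsupp.single v 1 + 𝒩.X a b) ∧
      HasVal (𝒩.x₁ s) (T.red h).1 1 ∧ HasVal (𝒩.x₂ s) (T.red h).2 1 := by
  by_cases hsm : Smooth 𝒩 v
  · exact exists_node_one hx hb hn hab hsm s
  · obtain ⟨s', hs'⟩ := exists_nodeTo hx hb hsm
    exact exists_node_one_of_nodeTo hx hb hn hab hs' (fun h => hv (h ▸ hs'))

/-- the general induction: a property of divisors which holds for `0` and is stable under adding a place which does not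
reduce to the node `s` holds for all effective divisors supported away from the node. -/
theorem induction_away {s : 𝒩.S} (Pr : Divisor K F → Prop) (h0 : Pr 0)
    (hadd : ∀ (E : Divisor K F) (v : Place K F), Pr E → ¬ NodeTo 𝒩 v s →
      Pr (E + Finsupp.single v 1))
    {E : Divisor K F} (hE0 : 0 ≤ E) (hE : ∀ v, E v ≠ 0 → ¬ NodeTo 𝒩 v s) : Pr E := by
  classical
  have hmul : ∀ (E : Divisor K F) (v : Place K F), Pr E → ¬ NodeTo 𝒩 v s → ∀ m : ℕ,
      Pr (E + Finsupp.single v (m : ℤ)) := by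
    intro E v hPE hv m
    induction m with
    | zero => simpa using hPE
    | succ m ih =>
      have := hadd _ v ih hv
      rwa [add_assoc, ← Finsupp.single_add, ← Nat.cast_succ] at this
  induction E using Finsupp.induction with
  | zero => exact h0
  | single_add v m f hv hm ih =>
    have hfv : f v = 0 := Finsupp.notMem_support_iff.mp hv
    have hat : ∀ u, u ≠ v → (Finsupp.single v m + f) u = f u := by
      intro u hu
      rw [Finsupp.add_apply, Finsupp.single_eq_of_ne hu, zero_add]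
    have hav : (Finsupp.single v m + f) v = m := by
      rw [Finsupp.add_apply, Finsupp.single_eq_same, hfv, add_zero]
    have hf0 : 0 ≤ f := by
      intro u
      by_cases hu : u = v
      · rw [hu, hfv]; rfl
      · rw [← hat u hu]; exact hE0 u
    have hfs : ∀ u, f u ≠ 0 → ¬ NodeTo 𝒩 u s := by
      intro u hu
      have huv : u ≠ v := by rintro rfl; exact hu hfv
      exact hE u (by rwa [hat u huv])
    have hm0 : 0 ≤ m := by rw [← hav]; exact hE0 v
    have hsv : ¬ NodeTo 𝒩 v s := hE v (by rwa [hav])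
    obtain ⟨m', rfl⟩ := Int.eq_ofNat_of_zero_le hm0
    rw [add_comm]
    exact hmul _ _ (ih hf0 hfs) hsv m'

theorem glueAt_of_away (hx : IsSepParam K x) (hb : IsSepParam k t) (s : 𝒩.S)
    {E : Divisor K F} (hE0 : 0 ≤ E) (hE : ∀ v, E v ≠ 0 → ¬ NodeTo 𝒩 v s) : GlueAt 𝒩 s E := by
  refine induction_away (s := s) (GlueAt 𝒩 s) (glueAt_zero s) ?_ hE0 hE
  intro E v h hv a b w hw
  obtain ⟨n, hn⟩ := 𝒩.exists_isLarge hx hb
  obtain ⟨h', hh', h1, h2⟩ := exists_one_away hx hb hn (a := n + 1) (b := 0) (by omega) hv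
  have hmul : ((w * h' : T.O) : F) ∈ riemannRochSpace (E + 𝒩.X (a + (n + 1)) (b + 0)) := by
    have := mul_mem_L hw hh'
    have e : E + Finsupp.single v 1 + 𝒩.X a b + (-Finsupp.single v 1 + 𝒩.X (n + 1) 0) =
        E + 𝒩.X (a + (n + 1)) (b + 0) := by
      rw [𝒩.wsX_add]; abel
    rw [e] at this
    exact this
  obtain ⟨c, hc1, hc2⟩ := h _ _ _ hmul
  rw [map_mul] at hc1 hc2
  exact ⟨c, hasVal_of_mul_one hc1 h1, hasVal_of_mul_one hc2 h2⟩

/-- **localised glue** -/
theorem glue_loc (hx : IsSepParam K x) (hb : IsSepParam k t) (s : 𝒩.S) (w : T.O)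
    (hw : ∀ v : Place K F, NodeTo 𝒩 v s → 0 ≤ v.ord (w : F)) :
    ∃ c : k, HasVal (𝒩.x₁ s) (T.red w).1 c ∧ HasVal (𝒩.x₂ s) (T.red w).2 c := by
  refine glueAt_of_away hx hb s (E := polarDiv K (w : F)) (polarDiv_nonneg _) ?_ 0 0 w ?_
  · intro v hv hns
    apply hv
    rw [hx.polarDiv_apply, max_eq_right (by have := hw v hns; omega)]
  · have : 𝒩.X 0 0 = 0 := by simp [NodalData.X]
    rw [this, add_zero]
    exact hx.mem_L_polarDiv _

/-- the statement proved by induction on `E` -/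
def VanAt (𝒩 : NodalData T) (s : 𝒩.S) (v₀ : Place K F) (E : Divisor K F) : Prop :=
  ∀ (a b : ℕ) (w : T.O), (w : F) ∈ riemannRochSpace (E + -Finsupp.single v₀ 1 + 𝒩.X a b) →
    HasVal (𝒩.x₁ s) (T.red w).1 0

theorem vanAt_of_away (hx : IsSepParam K x) (hb : IsSepParam k t) {s : 𝒩.S} {v₀ : Place K F}
    (hv₀ : NodeTo 𝒩 v₀ s) {E : Divisor K F} (hE0 : 0 ≤ E) (hE : ∀ v, E v ≠ 0 → ¬ NodeTo 𝒩 v s) :
    VanAt 𝒩 s v₀ E := by
  refine induction_away (s := s) (VanAt 𝒩 s v₀) ?_ ?_ hE0 hE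
  · intro a b w hw
    rw [zero_add] at hw
    exact (hv₀ a b ⟨w, hw, rfl⟩).2.1
  intro E v h hv a b w hw
  obtain ⟨n, hn⟩ := 𝒩.exists_isLarge hx hb
  obtain ⟨h', hh', h1, -⟩ := exists_one_away hx hb hn (a := n + 1) (b := 0) (by omega) hv
  have hmul : ((w * h' : T.O) : F) ∈
      riemannRochSpace (E + -Finsupp.single v₀ 1 + 𝒩.X (a + (n + 1)) (b + 0)) := by
    have := mul_mem_L hw hh'
    have e : E + Finsupp.single v 1 + -Finsupp.single v₀ 1 + 𝒩.X a b +
        (-Finsupp.single v 1 + 𝒩.X (n + 1) 0) =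
        E + -Finsupp.single v₀ 1 + 𝒩.X (a + (n + 1)) (b + 0) := by
      rw [𝒩.wsX_add]; abel
    rw [e] at this
    exact this
  have hc1 := h _ _ _ hmul
  rw [map_mul] at hc1
  exact hasVal_of_mul_one hc1 h1

/-- **evaluation at a place reducing to the node** -/
theorem evN_loc (hx : IsSepParam K x) (hb : IsSepParam k t) (s : 𝒩.S) (w : T.O)
    (hw : ∀ v : Place K F, NodeTo 𝒩 v s → 0 ≤ v.ord (w : F)) {v₀ : Place K F}
    (hv₀ : NodeTo 𝒩 v₀ s) (h0 : 0 < v₀.ord (w : F)) : HasVal (𝒩.x₁ s) (T.red w).1 0 := by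
  classical
  refine vanAt_of_away hx hb hv₀ (E := polarDiv K (w : F)) (polarDiv_nonneg _) ?_ 0 0 w ?_
  · intro v hv hns
    apply hv
    rw [hx.polarDiv_apply, max_eq_right (by have := hw v hns; omega)]
  · have : 𝒩.X 0 0 = 0 := by simp [NodalData.X]
    rw [this, add_zero, mem_L_iff]
    right
    intro v
    rw [Finsupp.add_apply, Finsupp.neg_apply, hx.polarDiv_apply, Finsupp.single_apply]
    split_ifs with hv
    · subst hv
      have := le_max_right (- v₀.ord (w : F)) 0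
      omega
    · have := le_max_left (- v.ord (w : F)) 0
      omega

end Fermat.Agent.SSP
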