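import Fermat.Agent.ND.Class
import Fermat.Agent.ND.Elts

/-!
# SSP / NG-A : places reducing to a node

`NodeTo 𝒩 v s` : every integral function with poles bounded by a chart divisor which vanishes at `v` has a
reduction which vanishes at the node `s`.  Notation: `W(-v) a b = 𝒩.W (-single v 1) a b`,
`LL a b = LL 𝒩 (X₁ a b) (X₂ a b)`, `LLn a b s`.

* `W_neg_eq_LLn` : `finrank W(-v) a b = finrank (LL a b) - 1` (`finrank_W'` with `D = -v`, `hx.degree_single`, `finrank_LL`,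
  `NodalData.degree_X`; compare the proof of `ND.W_neg_eq`); `LLn a b s < LL a b` (`LLn_le`, `not_LL_le_LLn`), so
  `finrank (LLn a b s) < finrank (LL a b)` (`Submodule.finrank_lt_finrank_of_lt`, `finite_LL`); `Submodule.eq_of_le_of_finrank_le`.
* `not_smooth_of_le` : if `RedTo₁ 𝒩 v Q`, `Q ∈ G₁`, then `exists_node_one` (`ND/Elts.lean`) gives `h ∈ L(-v + X a b) ∩ O` with value
  `1` at `s`; `T.red h ∈ W(-v) a b ≤ LLn a b s` has value `0` : `HasVal.unique`.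
* `nodeTo_of_le` : let `w ∈ W(-v) a' b'`.  `v` is not smooth, so (`smooth_or_node` at the level `(a + a', b + b')`) there is `s'` with
  `W(-v) (a + a') (b + b') ≤ LLn .. s'`.
  (i) `s' = s` : otherwise take `z ∈ LL a b` with value `0` at `s`, `1` at `s'` (`exists_mem_LL_hasVal`); `z ∈ LLn a b s = W(-v) a b`
  (`W_neg_eq_LLn`); `z = z * 1 ∈ W(-v) (a + a') (b + b')` (`NodalData.mul_mem_W` with `1 ∈ W 0 a' b'`, or `L_mono`); value `0` at `s'`: contradiction.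
  (ii) take `z ∈ LL a b = W 0 a b` (`W_zero_eq`) with value `1` at all nodes; `w * z ∈ W(-v) (a' + a) (b' + b) ≤ LLn .. s`; divide by `z`
  (`ND.hasVal_of_mul_one`, `ND/Sec.lean`; copy it if you do not want the import); `w ∈ LL a' b'` by `W_neg_le`.
* `exists_nodeTo` : `smooth_or_node` + `nodeTo_of_le`.
* `NodeTo.unique` : `W(-v) a b = LLn a b s = LLn a b s'` at a large level and `exists_mem_LL_hasVal`.
-/

set_option autoImplicit false

open AlgebraicCurve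

namespace Fermat.Agent.SSP

open Fermat.Agent.RED Fermat.Agent.S24 Fermat.Agent.SS Fermat.Agent.ND

variable {K F k Fb : Type*} [Field K] [Field F] [Algebra K F] [Field k] [Field Fb] [Algebra k Fb]
variable {T : TwoRed K F k Fb}

/-- the place `v` reduces to the node `s` -/
def NodeTo (𝒩 : NodalData T) (v : Place K F) (s : 𝒩.S) : Prop :=
  ∀ a b : ℕ, 𝒩.W (-Finsupp.single v 1) a b ≤ LLn 𝒩 (𝒩.X₁ a b) (𝒩.X₂ a b) s

variable {𝒩 : NodalData T} [IsAlgClosed K] [IsAlgClosed k] {x : F} {t : Fb}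

theorem W_neg_eq_LLn (hx : IsSepParam K x) (hb : IsSepParam k t) {n : ℕ} (hn : 𝒩.IsLarge n)
    {a b : ℕ} (hab : n + 1 ≤ a + b) {v : Place K F} {s : 𝒩.S}
    (h : 𝒩.W (-Finsupp.single v 1) a b ≤ LLn 𝒩 (𝒩.X₁ a b) (𝒩.X₂ a b) s) :
    𝒩.W (-Finsupp.single v 1) a b = LLn 𝒩 (𝒩.X₁ a b) (𝒩.X₂ a b) s := by
  have hfin := finite_LL (𝒩 := 𝒩) hb (𝒩.X₁ a b) (𝒩.X₂ a b)
  have hfin' : FiniteDimensional k (LLn 𝒩 (𝒩.X₁ a b) (𝒩.X₂ a b) s) :=
    Submodule.finiteDimensional_of_le (LLn_le _ _ s)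
  have hab' : (n : ℤ) + 1 ≤ ((a + b : ℕ) : ℤ) := by exact_mod_cast hab
  have l0 := 𝒩.le_degree_X a b
  have l1 := 𝒩.le_degree_X₁ a b
  have l2 := 𝒩.le_degree_X₂ a b
  refine Submodule.eq_of_le_of_finrank_le h ?_
  have h1 := finrank_W' (𝒩 := 𝒩) hx hn (D := -Finsupp.single v 1) (a := a) (b := b)
    (by rw [map_add, map_neg, hx.degree_single]; linarith)
  have h2 := finrank_LL hb hn (off₁_X₁ (𝒩 := 𝒩) a b) (off₂_X₂ (𝒩 := 𝒩) a b) (by linarith)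
    (by linarith)
  have h3 := 𝒩.degree_X a b
  rw [map_neg, hx.degree_single] at h1
  have hlt : LLn 𝒩 (𝒩.X₁ a b) (𝒩.X₂ a b) s < LL 𝒩 (𝒩.X₁ a b) (𝒩.X₂ a b) :=
    lt_of_le_not_ge (LLn_le _ _ s)
      (not_LL_le_LLn hb hn (off₁_X₁ a b) (off₂_X₂ a b) (by linarith) (by linarith) s)
  have h4 := Submodule.finrank_lt_finrank_of_lt hlt
  have h5 : (Module.finrank k (LLn 𝒩 (𝒩.X₁ a b) (𝒩.X₂ a b) s) : ℤ) <
      Module.finrank k (LL 𝒩 (𝒩.X₁ a b) (𝒩.X₂ a b)) := by exact_mod_cast h4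
  have h6 : (Module.finrank k (LLn 𝒩 (𝒩.X₁ a b) (𝒩.X₂ a b) s) : ℤ) ≤
      Module.finrank k (𝒩.W (-Finsupp.single v 1) a b) := by
    rw [h1]; rw [h2] at h5; linarith
  exact_mod_cast h6

theorem not_smooth_of_le (hx : IsSepParam K x) (hb : IsSepParam k t) {n : ℕ} (hn : 𝒩.IsLarge n)
    {a b : ℕ} (hab : n + 1 ≤ a + b) {v : Place K F} {s : 𝒩.S}
    (h : 𝒩.W (-Finsupp.single v 1) a b ≤ LLn 𝒩 (𝒩.X₁ a b) (𝒩.X₂ a b) s) : ¬ Smooth 𝒩 v := by
  intro hv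
  obtain ⟨h', hh', h1, -⟩ := exists_node_one hx hb hn hab hv s
  have h2 : T.red h' ∈ LLn 𝒩 (𝒩.X₁ a b) (𝒩.X₂ a b) s := h ⟨h', hh', rfl⟩
  exact one_ne_zero (h1.unique h2.2.1)

theorem nodeTo_of_le (hx : IsSepParam K x) (hb : IsSepParam k t) {n : ℕ} (hn : 𝒩.IsLarge n)
    {a b : ℕ} (hab : n + 2 ≤ a + b) {v : Place K F} {s : 𝒩.S}
    (h : 𝒩.W (-Finsupp.single v 1) a b ≤ LLn 𝒩 (𝒩.X₁ a b) (𝒩.X₂ a b) s) : NodeTo 𝒩 v s := by
  classical
  intro a' b' w hw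
  have hab' : (n : ℤ) + 2 ≤ ((a + b : ℕ) : ℤ) := by exact_mod_cast hab
  have l1 := 𝒩.le_degree_X₁ a b
  have l2 := 𝒩.le_degree_X₂ a b
  have hns := not_smooth_of_le hx hb hn (by omega) h
  have hEq := W_neg_eq_LLn hx hb hn (by omega) h
  rcases smooth_or_node hx hb hn (a := a + a') (b := b + b') (by omega) v with hsm | ⟨s', hs'⟩
  · exact absurd hsm hns
  have hss : s' = s := by
    by_contra hne
    obtain ⟨z, hz, hzv⟩ := exists_mem_LL_hasVal hb hn (off₁_X₁ (𝒩 := 𝒩) a b) (off₂_X₂ a b)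
      (by linarith) (by linarith) (fun i => if i = s' then 1 else 0)
    have hzs : z ∈ LLn 𝒩 (𝒩.X₁ a b) (𝒩.X₂ a b) s := by
      have := hzv s
      rw [if_neg (fun e => hne e.symm)] at this
      exact ⟨hz, this.1, this.2⟩
    rw [← hEq] at hzs
    have hz2 := hs' (𝒩.W_mono _ (Nat.le_add_right a a') (Nat.le_add_right b b') hzs)
    have := (hzv s').1
    rw [if_pos rfl] at this
    exact one_ne_zero (this.unique hz2.2.1)
  subst hss
  obtain ⟨z, hz, hzv⟩ := exists_mem_LL_hasVal hb hn (off₁_X₁ (𝒩 := 𝒩) a b) (off₂_X₂ a b)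
    (by linarith) (by linarith) (fun _ => 1)
  rw [← W_zero_eq hx hb hn (by omega)] at hz
  have hm := 𝒩.mul_mem_W hw hz
  rw [add_zero, add_comm a' a, add_comm b' b] at hm
  have hm2 := hs' hm
  exact ⟨W_neg_le v a' b' hw, hasVal_of_mul_aux hm2.2.1 (hzv s').1,
    hasVal_of_mul_aux hm2.2.2 (hzv s').2⟩

theorem NodeTo.not_smooth (hx : IsSepParam K x) (hb : IsSepParam k t) {v : Place K F} {s : 𝒩.S}
    (h : NodeTo 𝒩 v s) : ¬ Smooth 𝒩 v := by
  obtain ⟨n, hn⟩ := 𝒩.exists_isLarge hx hb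
  exact not_smooth_of_le hx hb hn (a := n + 1) (b := 0) (by omega) (h _ _)

theorem exists_nodeTo (hx : IsSepParam K x) (hb : IsSepParam k t) {v : Place K F}
    (hv : ¬ Smooth 𝒩 v) : ∃ s, NodeTo 𝒩 v s := by
  obtain ⟨n, hn⟩ := 𝒩.exists_isLarge hx hb
  rcases smooth_or_node hx hb hn (a := n + 2) (b := 0) (by omega) v with h | ⟨s, hs⟩
  · exact absurd h hv
  · exact ⟨s, nodeTo_of_le hx hb hn (by omega) hs⟩

theorem NodeTo.unique (hx : IsSepParam K x) (hb : IsSepParam k t) {v : Place K F} {s s' : 𝒩.S}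
    (h : NodeTo 𝒩 v s) (h' : NodeTo 𝒩 v s') : s = s' := by
  classical
  obtain ⟨n, hn⟩ := 𝒩.exists_isLarge hx hb
  have l1 := 𝒩.le_degree_X₁ (n + 1) 0
  have l2 := 𝒩.le_degree_X₂ (n + 1) 0
  push_cast at l1 l2
  have e1 := W_neg_eq_LLn hx hb hn (a := n + 1) (b := 0) (by omega) (h _ _)
  have e2 := W_neg_eq_LLn hx hb hn (a := n + 1) (b := 0) (by omega) (h' _ _)
  by_contra hne
  obtain ⟨z, hz, hzv⟩ := exists_mem_LL_hasVal hb hn (off₁_X₁ (𝒩 := 𝒩) (n + 1) 0)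
    (off₂_X₂ (n + 1) 0) (by linarith) (by linarith) (fun i => if i = s' then 1 else 0)
  have hzs : z ∈ LLn 𝒩 (𝒩.X₁ (n + 1) 0) (𝒩.X₂ (n + 1) 0) s := by
    have := hzv s
    rw [if_neg hne] at this
    exact ⟨hz, this.1, this.2⟩
  rw [← e1, e2] at hzs
  have := (hzv s').1
  rw [if_pos rfl] at this
  exact one_ne_zero (this.unique hzs.2.1)

end Fermat.Agent.SSP
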